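/-
KL-A, block LEVEL (helper127): the key lemma at level `r * N` implies the key lemma at level `N`
for exponents prime to `r + 1 = [F_{rN} : F_N]` (norm argument).
-/
import Mathlib
import Fermat.Agent.GAL.KLStatement
import Fermat.Agent.S24.Export.Ramification
import Fermat.Agent.S20.IndexGamma0
import Fermat.Prelude.Def_AlgebraicCurve_Correspondence

set_option autoImplicit false

noncomputable section

namespace Fermat.Agent.S18

open Polynomial IntermediateField ModularCurve AlgebraicCurve Fermat.Agent.S24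

/-- (a) an element which becomes an `n`-th power in an extension of degree prime to `n` is an
`n`-th power. -/
theorem Lower.exists_pow_of_coprime_finrank {F F' : Type*} [Field F] [Field F'] [Algebra F F']
    {n : ℕ} (hcop : Nat.Coprime n (Module.finrank F F')) {h : F} {u : F'}
    (hu : algebraMap F F' h = u ^ n) : ∃ u₀ : F, h = u₀ ^ n := by
  rcases Nat.eq_zero_or_pos n with rfl | hn
  · refine ⟨1, ?_⟩
    rw [pow_zero] at hu ⊢
    exact (algebraMap F F').injective (by rw [hu, map_one])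
  rcases eq_or_ne h 0 with rfl | h0
  · exact ⟨0, (zero_pow hn.ne').symm⟩
  set D := Module.finrank F F' with hD
  have hN : h ^ D = Algebra.norm F u ^ n := by
    rw [← map_pow, ← hu, Algebra.norm_algebraMap]
  have hbez : (n : ℤ) * Nat.gcdA n D + (D : ℤ) * Nat.gcdB n D = 1 := by
    have := Nat.gcd_eq_gcd_ab n D
    rw [hcop] at this
    exact_mod_cast this.symm
  refine ⟨h ^ (Nat.gcdA n D) * Algebra.norm F u ^ (Nat.gcdB n D), ?_⟩
  have hNu : Algebra.norm F u ≠ 0 := by
    intro hz
    rw [hz, zero_pow hn.ne'] at hN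
    exact pow_ne_zero D h0 hN
  calc h = h ^ (1 : ℤ) := (zpow_one h).symm
    _ = h ^ ((n : ℤ) * Nat.gcdA n D + (D : ℤ) * Nat.gcdB n D) := by rw [hbez]
    _ = (h ^ (Nat.gcdA n D)) ^ n * ((h ^ D) ^ (Nat.gcdB n D)) := by
        rw [zpow_add₀ h0, mul_comm (n : ℤ), zpow_mul, zpow_mul, zpow_natCast, zpow_natCast]
    _ = (h ^ (Nat.gcdA n D)) ^ n * ((Algebra.norm F u ^ (Nat.gcdB n D)) ^ n) := by
        rw [hN, ← zpow_natCast (Algebra.norm F u) n, ← zpow_mul, mul_comm (n : ℤ), zpow_mul,
          zpow_natCast]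
    _ = (h ^ (Nat.gcdA n D) * Algebra.norm F u ^ (Nat.gcdB n D)) ^ n := (mul_pow _ _ _).symm

/-- (b), abstract: multiplicativity of degrees in `K(x) ⊆ F ⊆ F'`. -/
theorem Lower.finrank_tower {K F F' : Type*} [Field K] [Field F] [Field F'] [Algebra K F]
    [Algebra K F'] [Algebra F F'] [IsScalarTower K F F'] (x : F) :
    Module.finrank K⟮x⟯ F * Module.finrank F F' = Module.finrank K⟮algebraMap F F' x⟯ F' := by
  rw [Module.finrank_mul_finrank K⟮x⟯ F F']
  have hmap : (K⟮x⟯).map (IsScalarTower.toAlgHom K F F') = K⟮algebraMap F F' x⟯ := by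
    rw [IntermediateField.adjoin_map, Set.image_singleton]
    rfl
  let i : K⟮x⟯ ≃ₐ[K] K⟮algebraMap F F' x⟯ :=
    ((K⟮x⟯).equivMap (IsScalarTower.toAlgHom K F F')).trans (IntermediateField.equivOfEq hmap)
  refine Algebra.finrank_eq_of_equiv_equiv i.toRingEquiv (RingEquiv.refl F') ?_
  ext y
  rfl

theorem Lower.bar_le {N M : ℕ} [NeZero N] [NeZero M] (h : N ∣ M) :
    modularFunctionFieldBar N ≤ modularFunctionFieldBar M := by
  rw [modularFunctionFieldBar, laurentBaseChange, IntermediateField.adjoin_le_iff]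
  rintro _ ⟨y, hy, rfl⟩
  exact coeffEmb_mem_laurentBaseChange Kbar (full_degeneracy_le h hy)

/-- the inclusion `FN N → FN M` for `N ∣ M`. -/
def Lower.incl {N M : ℕ} [NeZero N] [NeZero M] (h : N ∣ M) : FN N →ₐ[Kbar] FN M :=
  IntermediateField.inclusion (Lower.bar_le h)

theorem Lower.coe_incl {N M : ℕ} [NeZero N] [NeZero M] (h : N ∣ M) (x : FN N) :
    (Lower.incl h x : LaurentSeries Kbar) = x := IntermediateField.coe_inclusion _ x

theorem Lower.incl_jF {N M : ℕ} [NeZero N] [NeZero M] (h : N ∣ M) :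
    Lower.incl h (jF N) = jF M := Subtype.ext (Lower.coe_incl h (jF N))

/-- (b) `[FN (r N) : FN N] = r + 1`. -/
theorem Lower.finrank_incl {N r : ℕ} [NeZero N] [NeZero (r * N)] (hr : r.Prime) (hrN : ¬ r ∣ N) :
    letI := (Lower.incl (Dvd.intro_left r rfl : N ∣ r * N)).toRingHom.toAlgebra
    Module.finrank (FN N) (FN (r * N)) = r + 1 := by
  letI := (Lower.incl (Dvd.intro_left r rfl : N ∣ r * N)).toRingHom.toAlgebra
  haveI : IsScalarTower Kbar (FN N) (FN (r * N)) :=
    IsScalarTower.of_algebraMap_eq fun c =>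
      ((Lower.incl (Dvd.intro_left r rfl : N ∣ r * N)).commutes c).symm
  have h1 := Lower.finrank_tower (K := Kbar) (F := FN N) (F' := FN (r * N)) (jF N)
  have h2 : algebraMap (FN N) (FN (r * N)) (jF N) = jF (r * N) :=
    Lower.incl_jF (Dvd.intro_left r rfl : N ∣ r * N)
  rw [h2, Export.finrank_eq_index N, Export.finrank_eq_index (r * N)] at h1
  have hN : N ≠ 0 := NeZero.ne N
  have h3 : (CongruenceSubgroup.Gamma0 (r * N)).index =
      (r + 1) * (CongruenceSubgroup.Gamma0 N).index := by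
    rw [← Subgroup.relIndex_mul_index
      (S20.Combinatorics.Gamma0_le_of_dvd (Dvd.intro_left r rfl : N ∣ r * N)),
      S20.Combinatorics.relIndex_Gamma0_of_not_dvd hN hr hrN]
  have h4 : (CongruenceSubgroup.Gamma0 N).index ≠ 0 := by
    intro h0
    have := Export.finrank_eq_index N
    rw [h0] at this
    have hfd := Export.finiteDimensional N
    exact (Module.finrank_pos (R := Kbar⟮jF N⟯) (M := FN N)).ne' this
  rw [h3, mul_comm] at h1
  exact Nat.eq_of_mul_eq_mul_right (Nat.pos_of_ne_zero h4) h1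

theorem kl_level {N r : ℕ} [NeZero N] (hr : r.Prime) (hrN : ¬ r ∣ N)
    (A : ValuationSubring Kbar) (n : ℕ) (hcop : Nat.Coprime n (r + 1))
    (h : GAL.KL (r * N) A n) : GAL.KL N A n := by
  haveI : NeZero (r * N) := ⟨mul_ne_zero hr.ne_zero (NeZero.ne N)⟩
  intro P Q hP hQ hred hne hdiv
  set φ : FN N →ₐ[Kbar] FN (r * N) := Lower.incl (Dvd.intro_left r rfl : N ∣ r * N) with hφdef
  letI := φ.toRingHom.toAlgebra
  have hfr : Module.finrank (FN N) (FN (r * N)) = r + 1 := Lower.finrank_incl hr hrN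
  haveI : FiniteDimensional (FN N) (FN (r * N)) :=
    Module.finite_of_finrank_pos (by rw [hfr]; exact Nat.succ_pos r)
  have hφ : φ.toRingHom.IsIntegral := fun x =>
    (Algebra.IsIntegral.isIntegral (R := FN N) x)
  have hle := Lower.bar_le (Dvd.intro_left r rfl : N ∣ r * N)
  have hmap : φ ((⟨coeffMap A.subtype P, hP⟩ : FN N) / ⟨coeffMap A.subtype Q, hQ⟩) =
      (⟨coeffMap A.subtype P, hle hP⟩ : FN (r * N)) / ⟨coeffMap A.subtype Q, hle hQ⟩ := by
    rw [map_div₀]
    congr 1
  obtain ⟨u, hu⟩ := h P Q (hle hP) (hle hQ) hred hne (by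
    intro w
    rw [← hmap, Place.ord_restrictAlong φ hφ w]
    exact Dvd.dvd.mul_left (hdiv _) _)
  rw [← hmap] at hu
  exact Lower.exists_pow_of_coprime_finrank (F := FN N) (F' := FN (r * N))
    (by rw [hfr]; exact hcop) hu

end Fermat.Agent.S18
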